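import Fermat.Agent.S41.PD3.Tr
import Fermat.Agent.S41.Kappa.Formula

/-!
# S41, PD3, part 2: the area cocycle and `omega3`  (owner: see task S41-PD3b)
-/

set_option autoImplicit false

open CongruenceSubgroup Matrix Matrix.SpecialLinearGroup ModularGroup
open scoped MatrixGroups

namespace Fermat.Agent.S41.PD3

open Fermat.Agent.S41.PD Fermat.Agent.S41.Kappa

variable {M : ℕ} {x y : Additive (Gamma0 M) →+ ℤ} {u v : OnePoint ℚ → ℤ}

/-- translation of a cusp potential by an element of the group. -/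
theorem Area.apply_act (hu : IsCuspPot M u x) {γ : SL(2, ℤ)} (hγ : γ ∈ Gamma0 M)
    (s : OnePoint ℚ) : u (act γ s) = u s + x (Additive.ofMul ⟨γ, hγ⟩) := by
  have := hu ⟨γ, hγ⟩ s
  rw [← this]
  show u (act γ s) = u s + (u (act γ s) - u s)
  abel

theorem Area.act_ST_inv_inf : act (S * T)⁻¹ cInf = cNeg := by
  rw [← act_ST_neg, ← PD.act_mul, inv_mul_cancel, PD.act_one]

theorem Area.act_ST_inv_zero : act (S * T)⁻¹ cZero = cInf := by
  rw [← act_ST_inf, ← PD.act_mul, inv_mul_cancel, PD.act_one]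

/-- the Manin vector at `(S T) ξ`. -/
theorem Area.manin_ST_smul (hu : IsCuspPot M u x) (ξ : X M) :
    manin M u ((S * T) • ξ) = u (act ξ.out⁻¹ cNeg) - u (act ξ.out⁻¹ cInf) := by
  have hγ := Fermat.Agent.S16.Lift.coc_mem (Γ := Gamma0 M) (S * T) ξ
  have e : (((S * T) • ξ).out)⁻¹ =
      ((((S * T) • ξ).out)⁻¹ * (S * T) * ξ.out) * (ξ.out⁻¹ * (S * T)⁻¹) := by
    group
  unfold manin
  rw [e, PD.act_mul, PD.act_mul _ _ cZero, PD.act_mul ξ.out⁻¹, PD.act_mul ξ.out⁻¹, Area.act_ST_inv_inf,
    Area.act_ST_inv_zero, Area.apply_act hu hγ, Area.apply_act hu hγ]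
  ring

/-- the area cocycle of two cusp potentials is invariant. -/
theorem isInv_area (hu : IsCuspPot M u x) (hv : IsCuspPot M v y) : IsInv M (area u v) := by
  intro γ hγ a b c
  simp only [area, Area.apply_act hu hγ, Area.apply_act hv hγ]
  ring

/-- `omega3` of the Manin vectors is minus the trace of the area cocycle. -/
theorem omega3_eq_neg_tr [NeZero M] (hu : IsCuspPot M u x) (hv : IsCuspPot M v y) :
    omega3 M (manin M u) (manin M v) = - tr M (area u v) := by
  unfold omega3 tr
  rw [← Finset.sum_neg_distrib]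
  refine Finset.sum_congr rfl fun ξ _ => ?_
  rw [Area.manin_ST_smul hu, Area.manin_ST_smul hv]
  simp only [manin, area]
  ring

/-- the area cocycle only depends on `u` up to a constant. -/
theorem area_congr_left {u u' : OnePoint ℚ → ℤ} (k : ℤ) (hk : ∀ s, u' s = u s + k)
    (v : OnePoint ℚ → ℤ) (a b c : OnePoint ℚ) : area u' v a b c = area u v a b c := by
  simp only [area, hk]; ring

/-- additivity in the second variable. -/
theorem area_sum_right {ι : Type*} (s : Finset ι) (u : OnePoint ℚ → ℤ) (v : ι → OnePoint ℚ → ℤ)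
    (a b c : OnePoint ℚ) :
    area u (fun t => ∑ i ∈ s, v i t) a b c = ∑ i ∈ s, area u (v i) a b c := by
  simp only [area, ← Finset.sum_sub_distrib, Finset.mul_sum]

end Fermat.Agent.S41.PD3
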