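import Fermat.Agent.S41.PD.Farey

/-!
# S41, PD3, part 3: cusp potentials of `res x` and `cores y`  (owner: see task S41-PD3c)
-/

set_option autoImplicit false

open CongruenceSubgroup Matrix Matrix.SpecialLinearGroup ModularGroup
open scoped MatrixGroups

namespace Fermat.Agent.S41.PD3

open Fermat.Agent.S41.PD

variable {A : Type*} [AddCommGroup A] {N q : ℕ}

theorem pot_jQR_injective : Function.Injective jQR := by
  intro g g' e
  apply Units.ext
  ext i j
  have h1 := congrArg (fun M : GL (Fin 2) ℝ => (M : Matrix (Fin 2) (Fin 2) ℝ) i j) e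
  simpa [jQR] using h1

theorem pot_jQR_mapGL (g : SL(2, ℤ)) : jQR (mapGL ℚ g) = mapGL ℝ g := by
  apply Units.ext
  ext i j
  simp [jQR]

theorem pot_jQR_inclQ (M : ℕ) (γ : Gamma0 M) :
    jQR (inclQ M γ) = Fermat.Agent.Lib.HeckeHom.incl M γ :=
  pot_jQR_mapGL _

/-- a cusp potential of `x` is a cusp potential of `res x`. -/
theorem isCuspPot_res {x : Additive (Gamma0 N) →+ A} {u : OnePoint ℚ → A}
    (hu : IsCuspPot N u x) : IsCuspPot (N * q) u (res N q x) := by
  intro γ s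
  have hc : ((N * q : ℕ) : ℤ) ∣ (γ : SL(2, ℤ)) 1 0 := fam_mem_Gamma0.1 γ.2
  have hγ' : (γ : SL(2, ℤ)) ∈ Gamma0 N :=
    fam_mem_Gamma0.2 (Dvd.dvd.trans ⟨q, by push_cast; ring⟩ hc)
  rw [res_apply N q x (γ' := ⟨γ, hγ'⟩) rfl]
  exact hu ⟨γ, hγ'⟩ s

/-- the cusp potential of `cores y`. -/
theorem isCuspPot_cores (hq : q.Prime) (h : Nat.Coprime q N)
    {y : Additive (Gamma0 (N * q)) →+ A} {v : OnePoint ℚ → A} (hv : IsCuspPot (N * q) v y) :
    haveI : Fact q.Prime := ⟨hq⟩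
    IsCuspPot N (fun s => ∑ i : OnePoint (ZMod q), v (act (fam_rep N q h i) s))
      (cores N q hq h y) := by
  have : Fact q.Prime := ⟨hq⟩
  exact (isCorr_cores N q hq h).isPotential_of_map jQR pot_jQR_injective (φ₁' := inclQ N)
    (φ₂' := inclQ (N * q)) (α' := fun i => mapGL ℚ (fam_rep N q h i)) (pot_jQR_inclQ N)
    (pot_jQR_inclQ _) (fun i => by rw [pot_jQR_mapGL, fam_coresFam_eq]) hv

/-- translation of a cusp potential by an element of the group. -/
theorem IsCuspPot.apply_act {x : Additive (Gamma0 N) →+ A} {u : OnePoint ℚ → A}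
    (hu : IsCuspPot N u x) {γ : SL(2, ℤ)} (hγ : γ ∈ Gamma0 N) (s : OnePoint ℚ) :
    u (act γ s) = u s + x (Additive.ofMul ⟨γ, hγ⟩) := by
  have := hu ⟨γ, hγ⟩ s
  rw [← this]
  show u (act γ s) = u s + (u (act γ s) - u s)
  abel

end Fermat.Agent.S41.PD3
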