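import Fermat.Agent.S41.PD3.Area
import Fermat.Agent.S41.PD3.Pot

/-!
# S41, PD3: the adjunction between `res` and `cores`, in terms of cusp potentials
(owner: helper140)
-/

set_option autoImplicit false

open CongruenceSubgroup Matrix Matrix.SpecialLinearGroup ModularGroup
open scoped MatrixGroups

namespace Fermat.Agent.S41.PD3

open Fermat.Agent.S41.PD Fermat.Agent.S41.Kappa

/-- **PD3** in terms of cusp potentials. -/
theorem omega3_res_cores (N q : ℕ) [NeZero N] [NeZero (N * q)] (hq : q.Prime)
    (h : Nat.Coprime q N) {x : Additive (Gamma0 N) →+ ℤ} {y : Additive (Gamma0 (N * q)) →+ ℤ}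
    {u v : OnePoint ℚ → ℤ} (hu : IsCuspPot N u x) (hv : IsCuspPot (N * q) v y) :
    haveI : Fact q.Prime := ⟨hq⟩
    omega3 (N * q) (manin (N * q) u) (manin (N * q) v) =
      omega3 N (manin N u)
        (manin N (fun s => ∑ i : OnePoint (ZMod q), v (act (fam_rep N q h i) s))) := by
  haveI : Fact q.Prime := ⟨hq⟩
  have hu' : IsCuspPot (N * q) u (res N q x) := isCuspPot_res hu
  have hv' := isCuspPot_cores hq h hv
  rw [omega3_eq_neg_tr hu' hv, omega3_eq_neg_tr hu hv', tr_mul N q hq h (isInv_area hu' hv)]
  congr 2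
  funext a b c
  rw [area_sum_right]
  refine Finset.sum_congr rfl fun i _ => ?_
  have h1 : area u v (act (fam_rep N q h i) a) (act (fam_rep N q h i) b)
      (act (fam_rep N q h i) c) =
      area (fun s => u (act (fam_rep N q h i) s)) (fun s => v (act (fam_rep N q h i) s)) a b c :=
    rfl
  rw [h1]
  exact area_congr_left _ (fun s => IsCuspPot.apply_act hu (fam_rep_mem N q h i) s) _ a b c

end Fermat.Agent.S41.PD3
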