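import Fermat.Agent.S41.PD.Farey

/-!
# S41, PD3 (adjunction `res`/`cores`), part 1: the trace of an invariant function on triples of cusps
under change of level  (owner: see task S41-PD3a)
-/

set_option autoImplicit false

open CongruenceSubgroup Matrix Matrix.SpecialLinearGroup ModularGroup
open scoped MatrixGroups

namespace Fermat.Agent.S41.PD3

open Fermat.Agent.S41.PD

variable {A : Type*} [AddCommGroup A]

/-- `Φ` is invariant under `Γ₀(M)`. -/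
def IsInv (M : ℕ) (Φ : OnePoint ℚ → OnePoint ℚ → OnePoint ℚ → A) : Prop :=
  ∀ γ ∈ Gamma0 M, ∀ a b c, Φ (act γ a) (act γ b) (act γ c) = Φ a b c

/-- for an invariant function the trace can be computed with any representatives. -/
theorem tr_eq_sum_of_rep (M : ℕ) [NeZero M] {Φ : OnePoint ℚ → OnePoint ℚ → OnePoint ℚ → A}
    (hΦ : IsInv M Φ) (g : X M → SL(2, ℤ)) (hg : ∀ ξ, ((g ξ : SL(2, ℤ)) : X M) = ξ) :
    tr M Φ = ∑ ξ : X M, Φ (act (g ξ)⁻¹ cInf) (act (g ξ)⁻¹ cZero) (act (g ξ)⁻¹ cNeg) := by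
  unfold tr
  refine Finset.sum_congr rfl fun ξ _ => ?_
  have h1 : ((ξ.out : SL(2, ℤ)) : X M) = ((g ξ : SL(2, ℤ)) : X M) := by
    rw [hg, QuotientGroup.out_eq']
  have h2 : (ξ.out)⁻¹ * g ξ ∈ Gamma0 M := QuotientGroup.eq.1 h1
  have h3 : (g ξ)⁻¹ = ((ξ.out)⁻¹ * g ξ)⁻¹ * ξ.out⁻¹ := by group
  rw [h3, act_mul, act_mul, act_mul, hΦ _ (inv_mem h2)]

theorem Tr_Gamma0_mul_le (N q : ℕ) : Gamma0 (N * q) ≤ Gamma0 N := by
  intro g hg
  rw [fam_mem_Gamma0] at hg ⊢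
  exact Dvd.dvd.trans ⟨q, by push_cast; ring⟩ hg

/-- the bijection `X N × P¹(𝔽_q) ≃ X (N q)`, `(ξ, i) ↦ [ξ.out ρ_i⁻¹]`. -/
theorem bijective_coset_map (N q : ℕ) (hq : q.Prime) (h : Nat.Coprime q N) :
    Function.Bijective (fun z : X N × OnePoint (ZMod q) =>
      ((z.1.out * (fam_rep N q h z.2)⁻¹ : SL(2, ℤ)) : X (N * q))) := by
  constructor
  · rintro ⟨ξ, i⟩ ⟨ξ', j⟩ hz
    have h1 : (ξ.out * (fam_rep N q h i)⁻¹)⁻¹ * (ξ'.out * (fam_rep N q h j)⁻¹) ∈ Gamma0 (N * q) :=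
      QuotientGroup.eq.1 hz
    have h2 : (ξ.out)⁻¹ * ξ'.out ∈ Gamma0 N := by
      have h3 : (ξ.out)⁻¹ * ξ'.out = (fam_rep N q h i)⁻¹ *
          ((ξ.out * (fam_rep N q h i)⁻¹)⁻¹ * (ξ'.out * (fam_rep N q h j)⁻¹)) *
            fam_rep N q h j := by group
      rw [h3]
      exact mul_mem (mul_mem (inv_mem (fam_rep_mem N q h i)) (Tr_Gamma0_mul_le N q h1))
        (fam_rep_mem N q h j)
    have h4 : ξ = ξ' := by
      rw [← QuotientGroup.out_eq' ξ, ← QuotientGroup.out_eq' ξ']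
      exact QuotientGroup.eq.2 h2
    subst h4
    have h5 : fam_rep N q h i = ((ξ.out * (fam_rep N q h i)⁻¹)⁻¹ *
        (ξ.out * (fam_rep N q h j)⁻¹)) * fam_rep N q h j := by group
    rw [fam_disj N q hq h i j _ (fam_mem_Gamma0.1 h1) h5]
  · intro y
    obtain ⟨g, rfl⟩ := QuotientGroup.mk_surjective y
    have h1 : ((g : X N).out)⁻¹ * g ∈ Gamma0 N :=
      QuotientGroup.eq.1 (QuotientGroup.out_eq' (g : X N))
    obtain ⟨i, hi⟩ := fam_stable N q hq h (((g : X N).out)⁻¹ * g)⁻¹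
      (fam_mem_Gamma0.1 (inv_mem h1))
    refine ⟨((g : X N), i), QuotientGroup.eq.2 ?_⟩
    have h2 : ((g : X N).out * (fam_rep N q h i)⁻¹)⁻¹ * g =
        ((((g : X N).out)⁻¹ * g)⁻¹ * (fam_rep N q h i)⁻¹)⁻¹ := by group
    show ((g : X N).out * (fam_rep N q h i)⁻¹)⁻¹ * g ∈ Gamma0 (N * q)
    rw [h2]
    exact inv_mem (fam_mem_Gamma0.2 hi)

/-- **change of level**. -/
theorem tr_mul (N q : ℕ) [NeZero N] [NeZero (N * q)] (hq : q.Prime) (h : Nat.Coprime q N)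
    {Φ : OnePoint ℚ → OnePoint ℚ → OnePoint ℚ → A} (hΦ : IsInv (N * q) Φ) :
    haveI : Fact q.Prime := ⟨hq⟩
    tr (N * q) Φ = tr N (fun a b c => ∑ i : OnePoint (ZMod q),
      Φ (act (fam_rep N q h i) a) (act (fam_rep N q h i) b) (act (fam_rep N q h i) c)) := by
  have : Fact q.Prime := ⟨hq⟩
  let e := Equiv.ofBijective _ (bijective_coset_map N q hq h)
  let g : X (N * q) → SL(2, ℤ) := fun ξ' =>
    (e.symm ξ').1.out * (fam_rep N q h (e.symm ξ').2)⁻¹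
  have hg : ∀ ξ', ((g ξ' : SL(2, ℤ)) : X (N * q)) = ξ' := fun ξ' => e.apply_symm_apply ξ'
  rw [tr_eq_sum_of_rep (N * q) hΦ g hg, ← e.sum_comp]
  simp only [g, e.symm_apply_apply]
  rw [Fintype.sum_prod_type]
  unfold tr
  refine Finset.sum_congr rfl fun ξ _ => Finset.sum_congr rfl fun i _ => ?_
  rw [_root_.mul_inv_rev, inv_inv, act_mul, act_mul, act_mul]

end Fermat.Agent.S41.PD3
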